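import Fermat.Agent.S43.R2W.W

/-!
# S43 / R2 : properties of the partial Atkin-Lehner operator `w = w_q` on `F1(Mq)`

* `dia_wHom`   (W2) : `⟨d⟩ w = w ⟨d'⟩`, `d' ≡ d⁻¹ (q)`, `d' ≡ d (M)`;
* `wHom_gal`   (W3) : `w σ = σ w ⟨e⟩`, `e ≡ c(σ) (q)`, `e ≡ 1 (M)`;
* `wHom_wHom`  (W4) : `w w = ⟨d₂⟩`; `wE` : `w` as an automorphism;
* `coe_wHom_of_inv`, `wHom_Vq_of_inv` (W5) : on `Γ₀(M)`-invariant functions `w f = f(t^q)`, `w (f(t^q)) = f`.
-/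

set_option autoImplicit false
set_option maxHeartbeats 400000

open AlgebraicCurve ModularCurve UpperHalfPlane CongruenceSubgroup Matrix.SpecialLinearGroup
open scoped MatrixGroups Matrix

namespace Fermat.Agent.S43.R2W

open Fermat.Agent.S24 Fermat.Agent.ES Fermat.Agent.ES.An Fermat.Agent.S48 Fermat.Agent.S48.Coh1
open Fermat.Agent.S48.An1
open Fermat.Agent.S48.B1 (QField)

noncomputable section

variable {M q : ℕ} [NeZero M] [NeZero q] [NeZero (M * q)] (B : Bz M q) (D : X1Data (M * q))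

/-! ### (W2) -/

theorem Bz.dia_wHom (hq : 1 < q) (d d' : (ZMod (M * q))ˣ)
    (h : (d' : ZMod (M * q)) = ((-((M : ℤ) * B.z) : ℤ) : ZMod (M * q)) * ((d⁻¹ : (ZMod (M * q))ˣ) : ZMod (M * q))
      + (((q : ℤ) * B.t : ℤ) : ZMod (M * q)) * (d : ZMod (M * q))) (f : (X1.F1Q (M * q)).F) :
    dia D d (B.wHom D hq f) = B.wHom D hq (dia D d' f) := by
  apply D.φ_injective
  rw [φ_dia, Bz.φ_wHom, Bz.φ_wHom, φ_dia, ← cmp_mul, ← cmp_mul]
  obtain ⟨γ', h1, h2⟩ := B.conj (sig (M * q) d)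
  rw [h1, cmp_mul, cmp_mul]
  congr 1
  refine cmp_eq_of_Gamma0Map_eq (fun γ => D.inv1 γ f) ?_
  have ha := Gamma0_a_mul_d (sig (M * q) d)
  rw [Gamma0Map_sig] at ha h2
  have ha' : ((((sig (M * q) d : SL(2, ℤ)) 0 0 : ℤ)) : ZMod (M * q)) = ((d⁻¹ : (ZMod (M * q))ˣ) : ZMod (M * q)) :=
    Units.eq_inv_of_mul_eq_one_right ha
  rw [h2, ha', Gamma0Map_sig, h]

/-! ### (W4), (W5) -/

/-- `γ₁ = [[q,1],[Mz,t]]`; `diag(q,1) g₀ diag(q,1) = q γ₁`. -/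
def Bz.g1 : SL(2, ℤ) :=
  ⟨!![(q : ℤ), 1; (M : ℤ) * B.z, B.t], by rw [Matrix.det_fin_two_of]; linarith [B.h]⟩

theorem Bz.dg_g0_dg_smul (τ : ℍ) : (dg q * slp B.g0 * dg q) • τ = slp B.g1 • τ := by
  have hq0 : (q : ℂ) ≠ 0 := by exact_mod_cast NeZero.ne q
  apply UpperHalfPlane.ext
  rw [mul_smul, mul_smul, coe_dg_smul, slp_smul, slp_smul, coe_specialLinearGroup_apply,
    coe_specialLinearGroup_apply, coe_dg_smul]
  have e1 : B.g0 0 0 = 1 := rfl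
  have e2 : B.g0 0 1 = 1 := rfl
  have e3 : B.g0 1 0 = (M : ℤ) * B.z := rfl
  have e4 : B.g0 1 1 = (q : ℤ) * B.t := rfl
  have f1 : B.g1 0 0 = (q : ℤ) := rfl
  have f2 : B.g1 0 1 = 1 := rfl
  have f3 : B.g1 1 0 = (M : ℤ) * B.z := rfl
  have f4 : B.g1 1 1 = B.t := rfl
  rw [e1, e2, e3, e4, f1, f2, f3, f4]
  simp only [algebraMap_int_eq, eq_intCast, Int.cast_one, Int.cast_mul, Int.cast_natCast,
    Complex.ofReal_one, Complex.ofReal_mul, Complex.ofReal_natCast, Complex.ofReal_intCast, one_mul]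
  rw [show (M : ℂ) * (B.z : ℂ) * ((q : ℂ) * (τ : ℂ)) + (q : ℂ) * (B.t : ℂ)
      = (q : ℂ) * ((M : ℂ) * (B.z : ℂ) * (τ : ℂ) + (B.t : ℂ)) by ring, ← mul_div_assoc,
    mul_div_mul_left _ _ hq0]

theorem Bz.g0_mem : B.g0 ∈ Gamma0 M := by
  rw [Gamma0_mem]
  show (((M : ℤ) * B.z : ℤ) : ZMod M) = 0
  push_cast
  rw [ZMod.natCast_self, zero_mul]

theorem Bz.g1_mem : B.g1 ∈ Gamma0 M := by
  rw [Gamma0_mem]
  show (((M : ℤ) * B.z : ℤ) : ZMod M) = 0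
  push_cast
  rw [ZMod.natCast_self, zero_mul]

theorem Bz.g0g1_entries : (B.g0 * B.g1) 1 0 = ((M * q : ℕ) : ℤ) * (B.z * (1 + B.t)) ∧
    (B.g0 * B.g1) 1 1 = (M : ℤ) * B.z + (q : ℤ) * B.t * B.t := by
  have e3 : B.g0 1 0 = (M : ℤ) * B.z := rfl
  have e4 : B.g0 1 1 = (q : ℤ) * B.t := rfl
  have f1 : B.g1 0 0 = (q : ℤ) := rfl
  have f2 : B.g1 0 1 = 1 := rfl
  have f3 : B.g1 1 0 = (M : ℤ) * B.z := rfl
  have f4 : B.g1 1 1 = B.t := rfl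
  constructor
  · rw [Matrix.SpecialLinearGroup.coe_mul, Matrix.mul_apply, Fin.sum_univ_two, e3, e4, f1, f3]
    push_cast
    ring
  · rw [Matrix.SpecialLinearGroup.coe_mul, Matrix.mul_apply, Fin.sum_univ_two, e3, e4, f2, f4]
    ring

theorem Bz.g0g1_mem : B.g0 * B.g1 ∈ Gamma0 (M * q) := by
  rw [Gamma0_mem, B.g0g1_entries.1, Int.cast_mul, Int.cast_natCast, ZMod.natCast_self, zero_mul]

/-- `w² = ⟨d₂⟩`, `d₂ = M z + q t²`. -/
def Bz.d2 : (ZMod (M * q))ˣ := (Gamma0Map_isUnit (M * q) ⟨_, B.g0g1_mem⟩).unit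

theorem Bz.coe_d2 : (B.d2 : ZMod (M * q)) = (((M : ℤ) * B.z + (q : ℤ) * B.t * B.t : ℤ) : ZMod (M * q)) := by
  show (((B.g0 * B.g1) 1 1 : ℤ) : ZMod (M * q)) = _
  rw [B.g0g1_entries.2]

theorem Bz.cmp_W_W (u : Mer) : cmp B.W (cmp B.W u) = cmp (slp (B.g0 * B.g1)) u := by
  rw [← cmp_mul, Bz.W, show slp B.g0 * dg q * (slp B.g0 * dg q)
    = slp B.g0 * (dg q * slp B.g0 * dg q) by group, cmp_mul, cmp_congr B.dg_g0_dg_smul, ← cmp_mul,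
    ← map_mul]

theorem Bz.wHom_wHom (hq : 1 < q) (f : (X1.F1Q (M * q)).F) :
    B.wHom D hq (B.wHom D hq f) = dia D B.d2 f := by
  apply D.φ_injective
  rw [Bz.φ_wHom, Bz.φ_wHom, φ_dia, B.cmp_W_W]
  exact cmp_eq_of_Gamma0Map_eq (fun γ => D.inv1 γ f) (g := ⟨_, B.g0g1_mem⟩)
    (by rw [Gamma0Map_sig]; rfl)

theorem Bz.wHom_bijective (hq : 1 < q) : Function.Bijective (B.wHom D hq) := by
  refine ⟨(B.wHom D hq).toRingHom.injective, fun f => ⟨B.wHom D hq (dia D B.d2⁻¹ f), ?_⟩⟩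
  rw [Bz.wHom_wHom, ← AlgEquiv.mul_apply, ← map_mul, mul_inv_cancel, map_one]
  rfl

/-- **`w_q` as an automorphism of `F1(Mq)`.** -/
def Bz.wE (hq : 1 < q) : (X1.F1Q (M * q)).F ≃ₐ[Qb] (X1.F1Q (M * q)).F :=
  AlgEquiv.ofBijective (B.wHom D hq) (B.wHom_bijective D hq)

theorem Bz.wE_apply (hq : 1 < q) (f : (X1.F1Q (M * q)).F) : B.wE D hq f = B.wHom D hq f := rfl

/-- (W5a) on `Γ₀(M)`-invariant functions `w f = f(t^q)`. -/
theorem Bz.coe_wHom_of_inv (hq : 1 < q) (f : (X1.F1Q (M * q)).F)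
    (hf : ∀ γ : Gamma0 M, cmp (slp (γ : SL(2, ℤ))) (D.φ f) = D.φ f) :
    ((B.wHom D hq f : (X1.F1Q (M * q)).F) : LaurentSeries Qb) = Vq Qb q (f : LaurentSeries Qb) := by
  have h1 := D.hasLau (B.wHom D hq f)
  rw [show D.B.φ _ = cmp B.W (D.φ _) from B.φ_wHom D hq _, Bz.W, cmp_mul, hf ⟨_, B.g0_mem⟩] at h1
  exact (coeffMap iotaC).injective (h1.unique (hasLau_cmp_dg (D.hasLau f)))

/-- (W5b) on `Γ₀(M)`-invariant functions `w (f(t^q)) = f`. -/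
theorem Bz.wHom_Vq_of_inv (hq : 1 < q) (f f₂ : (X1.F1Q (M * q)).F)
    (hf : ∀ γ : Gamma0 M, cmp (slp (γ : SL(2, ℤ))) (D.φ f) = D.φ f)
    (h₂ : (f₂ : LaurentSeries Qb) = Vq Qb q (f : LaurentSeries Qb)) : B.wHom D hq f₂ = f := by
  have e : D.φ f₂ = cmp (dg q) (D.φ f) := by
    have h1 := D.hasLau f₂
    rw [h₂] at h1
    exact h1.eq_of_eq (hasLau_cmp_dg (D.hasLau f))
  apply D.φ_injective
  rw [Bz.φ_wHom, e, ← cmp_mul, Bz.W, ← mul_assoc, cmp_congr B.dg_g0_dg_smul, hf ⟨_, B.g1_mem⟩]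

/-! ### (W3) Galois -/

theorem Bz.PQ : (((M : ℤ) * B.z : ℤ) : ZMod (M * q)) * (((q : ℤ) * B.t : ℤ) : ZMod (M * q)) = 0 := by
  rw [← Int.cast_mul, show (M : ℤ) * B.z * ((q : ℤ) * B.t) = ((M * q : ℕ) : ℤ) * (B.z * B.t) by
    push_cast; ring, Int.cast_mul, Int.cast_natCast, ZMod.natCast_self, zero_mul]

theorem Bz.QsubP : (((q : ℤ) * B.t : ℤ) : ZMod (M * q)) - (((M : ℤ) * B.z : ℤ) : ZMod (M * q)) = 1 := by
  rw [← Int.cast_sub, B.h, Int.cast_one]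

/-- `σ (w x_{(0,a e)}) = w x_{(0,c a)}` on series. -/
theorem Bz.coeffMap_wx (σ : GQ) {c : ℕ} (hc : σ (X1.zM (M * q)) = X1.zM (M * q) ^ c)
    (e a : ZMod (M * q))
    (he : e = ((-((M : ℤ) * B.z) : ℤ) : ZMod (M * q)) * (c : ZMod (M * q))
      + (((q : ℤ) * B.t : ℤ) : ZMod (M * q))) :
    coeffMap (σ : Qb →+* Qb) (B.wx (a * e)) = B.wx ((c : ZMod (M * q)) * a) := by
  unfold Bz.wx
  rw [coeffMap_ws]
  have : (σ : Qb →+* Qb) (X1.zM (M * q)) = X1.zM (M * q) ^ c := hc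
  rw [this, ws_pow M q (X1.zM_pow (M * q))]
  congr 1
  have hPQ := B.PQ
  have hQP := B.QsubP
  set P := (((M : ℤ) * B.z : ℤ) : ZMod (M * q)) with hP
  set Q := (((q : ℤ) * B.t : ℤ) : ZMod (M * q)) with hQ
  have he' : e = -P * (c : ZMod (M * q)) + Q := by rw [he, Int.cast_neg]
  ext i
  fin_cases i
  · show a * e * P = (c : ZMod (M * q)) * a * P
    rw [he']
    linear_combination (a - a * (c : ZMod (M * q))) * hPQ + a * (c : ZMod (M * q)) * P * hQP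
  · show (c : ZMod (M * q)) * (a * e * Q) = (c : ZMod (M * q)) * a * Q
    rw [he']
    linear_combination (-(c : ZMod (M * q)) * a * (c : ZMod (M * q)) + (c : ZMod (M * q)) * a) * hPQ
      + (c : ZMod (M * q)) * a * Q * hQP

/-- **(W3)** `w σ = σ w ⟨e⟩`, `e ≡ c (q)`, `e ≡ 1 (M)`, where `σ ζ = ζ^c`. -/
theorem Bz.wHom_gal (hq : 1 < q) (σ : GQ) {c : ℕ} (hcop : c.Coprime (M * q))
    (hc : σ (X1.zM (M * q)) = X1.zM (M * q) ^ c) (e : (ZMod (M * q))ˣ)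
    (he : (e : ZMod (M * q)) = ((-((M : ℤ) * B.z) : ℤ) : ZMod (M * q)) * (c : ZMod (M * q))
      + (((q : ℤ) * B.t : ℤ) : ZMod (M * q))) (f : (X1.F1Q (M * q)).F) :
    B.wHom D hq ((X1.F1Q (M * q)).galF σ f) = (X1.F1Q (M * q)).galF σ (B.wHom D hq (dia D e f)) := by
  induction f using QField.induction with
  | hgen x hx =>
    rcases hx with rfl | ⟨a, rfl⟩
    · have h1 : (X1.F1Q (M * q)).galF σ ⟨jqModC Qb, X1.jq_mem (M * q)⟩ = ⟨jqModC Qb, X1.jq_mem (M * q)⟩ :=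
        Subtype.ext (coeffMap_jqModC _)
      refine (congrArg _ h1).trans ?_
      refine Eq.trans ?_ (congrArg (fun y => (X1.F1Q (M * q)).galF σ (B.wHom D hq y)) (dia_jq D e).symm)
      apply Subtype.ext
      rw [QField.coe_galF, Bz.coe_wHom_jq, coeffMap_Vq, coeffMap_jqModC]
    · have h1 : (X1.F1Q (M * q)).galF σ ⟨X1.xg (M * q) (a : ZMod (M * q)), X1.xg_mem (M * q) a⟩
          = ⟨X1.xg (M * q) ((ZMod.unitOfCoprime c hcop * a : (ZMod (M * q))ˣ) : ZMod (M * q)),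
            X1.xg_mem (M * q) _⟩ :=
        Subtype.ext (X1.coeffMap_xg σ hc _)
      refine (congrArg _ h1).trans ?_
      refine Eq.trans ?_ (congrArg (fun y => (X1.F1Q (M * q)).galF σ (B.wHom D hq y)) (dia_xg D e a).symm)
      apply Subtype.ext
      rw [QField.coe_galF, Bz.coe_wHom_xg, Bz.coe_wHom_xg, Units.val_mul, Units.val_mul,
        B.coeffMap_wx σ hc _ _ he]
      rfl
  | hc c =>
    rw [QField.galF_algebraMap, AlgEquiv.commutes, AlgHom.commutes, AlgHom.commutes,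
      QField.galF_algebraMap]
  | hadd f g hf hg => rw [map_add, map_add, map_add, map_add, map_add, hf, hg]
  | hmul f g hf hg => rw [map_mul, map_mul, map_mul, map_mul, map_mul, hf, hg]
  | hinv f hf => rw [map_inv₀, map_inv₀, map_inv₀, map_inv₀, map_inv₀, hf]

end

end Fermat.Agent.S43.R2W
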