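import Fermat.Agent.S48.X1.F1Q

/-!
# S43 / R2 : the formal `q`-expansion of `x_v(q τ)`, `v = (v₀, v₁) ∈ (ℤ/N)²`, `N = M q`, `M ∣ v₀`

`x_v(τ') = ∑ nc z 4 v n e(n τ'/N) * (E₄²/Δ)(τ')`; for `τ' = q τ` and `M ∣ v₀ ≠ 0` only the `n = M n'` occur:
`ws M q z v = (∑ nc z 4 v (M n') t^n') * wfac(t^q)`.
-/

set_option autoImplicit false

open AlgebraicCurve ModularCurve Fermat.Agent.ES

namespace Fermat.Agent.S43.R2W

open Fermat.Agent.S48

noncomputable section

variable {R S : Type*} [Field R] [Field S] {N : ℕ}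

/-- formal `G_{4,v}(q τ) / K_4`. -/
def gw (M : ℕ) (z : R) (v : Fin 2 → ZMod N) : PowerSeries R :=
  PowerSeries.mk fun n => EIS.nc z 4 v (M * n)

/-- formal `x_v(q τ)`. -/
def ws (M q : ℕ) [NeZero q] (z : R) (v : Fin 2 → ZMod N) : LaurentSeries R :=
  HahnSeries.ofPowerSeries ℤ R (gw M z v) * qExpand R q (EIS.wfac R)

theorem map_gw [NeZero N] (f : R →+* S) (M : ℕ) (z : R) (v : Fin 2 → ZMod N) :
    (gw M z v).map f = gw M (f z) v := by
  ext n
  rw [PowerSeries.coeff_map, gw, gw, PowerSeries.coeff_mk, PowerSeries.coeff_mk, EIS.map_nc]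

theorem coeffMap_ws [NeZero N] (f : R →+* S) (M q : ℕ) [NeZero q] (z : R) (v : Fin 2 → ZMod N) :
    coeffMap f (ws M q z v) = ws M q (f z) v := by
  unfold ws
  rw [map_mul, ES.coeffMap_ofPowerSeries, map_gw, coeffMap_qExpand, EIS.coeffMap_wfac]

/-- change of the root of unity. -/
theorem nc_pow [NeZero N] {z : R} (hz : z ^ N = 1) (c : ℕ) (v : Fin 2 → ZMod N) (n : ℕ) :
    EIS.nc (z ^ c) 4 v n = EIS.nc z 4 ![v 0, (c : ZMod N) * v 1] n := by
  unfold EIS.nc EIS.coef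
  have h2 : -((c : ZMod N) * v 1) = (c : ZMod N) * (-v 1) := by ring
  simp only [Matrix.cons_val_zero, Matrix.cons_val_one, h2, mul_comm _ (ZMod.val _), pow_mul,
    X1.pow_val_mul hz]

theorem ws_pow [NeZero N] (M q : ℕ) [NeZero q] {z : R} (hz : z ^ N = 1) (c : ℕ)
    (v : Fin 2 → ZMod N) : ws M q (z ^ c) v = ws M q z ![v 0, (c : ZMod N) * v 1] := by
  unfold ws gw
  congr 2
  ext n
  simp only [PowerSeries.coeff_mk]
  exact nc_pow hz c v _

/-- only the exponents divisible by `M` occur. -/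
theorem nc_eq_zero_of_not_dvd {M q : ℕ} (hN : N = M * q) (z : R) (v : Fin 2 → ZMod N)
    (b : ZMod N) (hv : v 0 = (M : ZMod N) * b) (n : ℕ) (hn : ¬ M ∣ n) :
    EIS.nc z 4 v n = 0 := by
  have hn0 : n ≠ 0 := by
    rintro rfl
    exact hn (dvd_zero _)
  have key : ∀ (k : ℕ) (b' : ZMod N), (k : ZMod N) = (M : ZMod N) * b' → M ∣ k := by
    intro k b' hk
    have hMN : M ∣ N := ⟨q, hN⟩
    have h1 := congrArg (ZMod.castHom hMN (ZMod M)) hk
    rw [map_natCast, map_mul, map_natCast, ZMod.natCast_self, zero_mul] at h1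
    exact (ZMod.natCast_eq_zero_iff k M).mp h1
  unfold EIS.nc EIS.coef
  rw [if_neg hn0]
  refine Finset.sum_eq_zero fun m hm => ?_
  have hmn : m ∣ n := (Nat.mem_divisors.mp hm).1
  have hd : ¬ M ∣ n / m := fun h => hn (h.trans (Nat.div_dvd_of_dvd hmn))
  rw [if_neg (fun h => hd (key _ b (h.trans hv))),
    if_neg (fun h => hd (key _ (-b) (h.trans (by rw [hv]; ring))))]
  simp

end

end Fermat.Agent.S43.R2W
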