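import Fermat.Agent.S43.R2W.Mat
import Fermat.Agent.S43.R2W.Ser
import Fermat.Agent.S48.An1.Lau2
import Fermat.Agent.S48.EIS.Bridge

/-!
# S43 / R2 : the `q`-expansion of `τ ↦ x_v(q τ)` (`v ∈ (ℤ/Mq)²`, `M ∣ v₀ ≠ 0`) is `ws M q ζ v`
-/

set_option autoImplicit false
set_option maxHeartbeats 400000

open UpperHalfPlane hiding I
open Complex Filter Topology Function Matrix ModularCurve
open scoped Real MatrixGroups Manifold ModularForm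

namespace Fermat.Agent.S43.R2W

open Fermat.Agent.S24 Fermat.Agent.ES Fermat.Agent.ES.An Fermat.Agent.S48 Fermat.Agent.S48.An1

noncomputable section

local notation "𝕢" => Periodic.qParam

variable {M q N : ℕ} [NeZero M] [NeZero q] [NeZero N]

omit [NeZero N] in
theorem qParam_dg (hN : N = M * q) (τ : ℍ) :
    𝕢 (N : ℝ) ((dg q • τ : ℍ) : ℂ) ^ M = 𝕢 (1 : ℝ) (τ : ℂ) := by
  have hM : (M : ℂ) ≠ 0 := by exact_mod_cast NeZero.ne M
  have hq : (q : ℂ) ≠ 0 := by exact_mod_cast NeZero.ne q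
  rw [coe_dg_smul, Periodic.qParam, Periodic.qParam, ← Complex.exp_nat_mul, hN]
  congr 1
  push_cast
  field_simp

theorem hasSum_Gq (hN : N = M * q) (v : Fin 2 → ZMod N) (b : ZMod N)
    (hv : v 0 = (M : ZMod N) * b) (hv0 : v 0 ≠ 0) (τ : ℍ) :
    HasSum (fun n : ℕ => EIS.nc (EIS.zeta N) 4 v (M * n) • 𝕢 (1 : ℝ) (τ : ℂ) ^ n)
      (EIS.Gn N 4 v (dg q • τ)) := by
  have hvne : v ≠ 0 := fun h => hv0 (by rw [h]; rfl)
  have h := EIS.hasSum_G_div_K (Or.inr rfl) v hvne (dg q • τ)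
  have hinj : Function.Injective (fun n : ℕ => M * n) := fun a b hab =>
    Nat.eq_of_mul_eq_mul_left (Nat.pos_of_ne_zero (NeZero.ne M)) hab
  rw [← hinj.hasSum_iff] at h
  · refine h.congr_fun ?_ |> fun h' => h'
    intro n
    simp only [Function.comp_apply]
    rw [pow_mul, qParam_dg hN]
  · intro n hn
    have : ¬ M ∣ n := fun ⟨k, hk⟩ => hn ⟨k, hk.symm⟩
    rw [nc_eq_zero_of_not_dvd hN _ v b hv n this, zero_smul]

theorem Gq_mem (hN : N = M * q) (v : Fin 2 → ZMod N) (b : ZMod N)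
    (hv : v 0 = (M : ZMod N) * b) (hv0 : v 0 ≠ 0) :
    (fun τ : ℍ => EIS.Gn N 4 v (dg q • τ)) ∈ HolCusp 1 := by
  refine EIS.mem_HolCusp_of_bounded 1
    (cmpHol (dg q) ⟨EIS.Gn N 4 v, EIS.Gn_mdiff (by norm_num) v⟩).2 (fun τ => ?_) ?_
  · have h1 := hasSum_Gq hN v b hv hv0 (((1 : ℕ) : ℝ) +ᵥ τ)
    have h2 := hasSum_Gq hN v b hv hv0 τ
    have hq : 𝕢 (1 : ℝ) (((((1 : ℕ) : ℝ)) +ᵥ τ : ℍ) : ℂ) = 𝕢 (1 : ℝ) (τ : ℂ) := by
      rw [UpperHalfPlane.coe_vadd, add_comm, Nat.cast_one]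
      exact EIS.BridgeB_qParam_add (1 : ℝ) one_ne_zero (τ : ℂ)
    rw [hq] at h1
    exact h1.unique h2
  · exact (EIS.tendsto_of_hasSum one_pos (hasSum_Gq hN v b hv hv0)).isBigO_one ℝ

theorem laurent_Gq (hN : N = M * q) (v : Fin 2 → ZMod N) (b : ZMod N)
    (hv : v 0 = (M : ZMod N) * b) (hv0 : v 0 ≠ 0) :
    laurent 1 ⟨_, Gq_mem hN v b hv hv0⟩
      = HahnSeries.ofPowerSeries ℤ ℂ (gw M (EIS.zeta N) v) := by
  refine EIS.laurent_of_hasSum 1 ⟨_, Gq_mem hN v b hv hv0⟩ _ (fun τ => ?_)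
  rw [Nat.cast_one]
  exact hasSum_Gq hN v b hv hv0 τ

/-- **the `q`-expansion of `x_v(q τ)`.** -/
theorem hasLau_cmp_dg_Xf (hN : N = M * q) (v : Fin 2 → ZMod N) (b : ZMod N)
    (hv : v 0 = (M : ZMod N) * b) (hv0 : v 0 ≠ 0) :
    HasLau 1 (cmp (dg q) (algebraMap Hol Mer ⟨EIS.Xf N v, EIS.Xf_mdiff v⟩))
      (ws M q (EIS.zeta N) v) := by
  obtain ⟨g0, hg0, hg0l⟩ := HeckeLau.exists_comp (dg q) q 1 0 1 q one_ne_zero (by ring)
    (fun τ => by rw [coe_dg_smul]; simp) ⟨EIS.Wf, EIS.Wf_mem_HolCusp_one⟩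
  rw [HeckeLau.expU_zero, twist_one, EIS.laurent_Wf] at hg0l
  have e : cmp (dg q) (algebraMap Hol Mer ⟨EIS.Xf N v, EIS.Xf_mdiff v⟩)
      = algebraMap Hol Mer (cuspIncl 1 (⟨_, Gq_mem hN v b hv hv0⟩ * g0)) := by
    rw [cmp_algebraMap]
    refine congrArg _ (Subtype.ext ?_)
    funext τ
    show EIS.Xf N v (dg q • τ) = EIS.Gn N 4 v (dg q • τ) * (g0 : ℍ → ℂ) τ
    rw [hg0]
    rfl
  rw [e]
  have h := hasLau_of_holCusp 1 ((⟨_, Gq_mem hN v b hv hv0⟩ : HolCusp 1) * g0)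
  rw [map_mul (laurent 1), laurent_Gq hN v b hv hv0, hg0l] at h
  exact h

end

end Fermat.Agent.S43.R2W
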