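import Fermat.Agent.S48.An1.Dia
import Fermat.Agent.S48.An1.Norm

/-!
# S43 / R2 : the matrix `W = g₀ · diag(q,1)` of the partial Atkin-Lehner operator `w_q` on `Γ₁(M q)`

`q t - M z = 1`, `g₀ = [[1,1],[M z, q t]] ∈ SL₂(ℤ)`, `W = g₀ diag(q,1) = [[q,1],[M q z, q t]]`, `det W = q`.
* `conj`  : for `γ ∈ Γ₀(Mq)` there is `γ' ∈ Γ₀(Mq)` with `W γ = γ' W` and
  `d(γ') = (-M z) a(γ) + (q t) d(γ)` in `ℤ/Mq` (`≡ a(γ) mod q`, `≡ d(γ) mod M`).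
* `sq`    : `W W = q γ₂`, `γ₂ ∈ Γ₀(Mq)`.
-/

set_option autoImplicit false
set_option maxHeartbeats 400000

open UpperHalfPlane CongruenceSubgroup Matrix.SpecialLinearGroup
open scoped MatrixGroups Matrix

namespace Fermat.Agent.S43.R2W

open Fermat.Agent.S24 Fermat.Agent.ES Fermat.Agent.ES.An Fermat.Agent.S48.Coh1
open Fermat.Agent.S48.An1

noncomputable section

/-- Bezout data `q t - M z = 1`. -/
structure Bz (M q : ℕ) where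
  z : ℤ
  t : ℤ
  h : (q : ℤ) * t - (M : ℤ) * z = 1

theorem exists_Bz {M q : ℕ} (h : Nat.Coprime q M) : Nonempty (Bz M q) := by
  have hb := Int.gcd_eq_gcd_ab (q : ℤ) (M : ℤ)
  rw [Int.gcd_natCast_natCast, h] at hb
  exact ⟨⟨-Int.gcdB q M, Int.gcdA q M, by push_cast at hb; linarith⟩⟩

variable {M q : ℕ} (B : Bz M q)

/-- `g₀ = [[1,1],[M z, q t]]`. -/
def Bz.g0 : SL(2, ℤ) :=
  ⟨!![1, 1; (M : ℤ) * B.z, (q : ℤ) * B.t], by rw [Matrix.det_fin_two_of]; linarith [B.h]⟩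

/-- `diag(q,1)` in `GL₂(ℝ)⁺`. -/
def dg (q : ℕ) : GLp := ⟨ModularForm.heckeDiagMatrix q, ModularForm.det_heckeDiagMatrix_pos q⟩

theorem coe_dg_smul (q : ℕ) [NeZero q] (τ : ℍ) : ((dg q • τ : ℍ) : ℂ) = (q : ℂ) * τ :=
  ModularForm.coe_heckeDiagMatrix_smul (NeZero.ne q) τ

/-- `W = g₀ diag(q,1)`. -/
def Bz.W : GLp := slp B.g0 * dg q

/-- `diag(q,1) γ = γ' diag(q,1)`. -/
theorem dg_mul_slp [NeZero q] (γ γ' : SL(2, ℤ)) (h00 : γ' 0 0 = γ 0 0) (h01 : γ' 0 1 = q * γ 0 1)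
    (h10 : q * γ' 1 0 = γ 1 0) (h11 : γ' 1 1 = γ 1 1) : dg q * slp γ = slp γ' * dg q := by
  apply Subtype.ext
  apply Units.ext
  show ((ModularForm.heckeDiagMatrix q : GL (Fin 2) ℝ) : Matrix (Fin 2) (Fin 2) ℝ)
      * ((mapGL ℝ γ : GL (Fin 2) ℝ) : Matrix (Fin 2) (Fin 2) ℝ)
    = ((mapGL ℝ γ' : GL (Fin 2) ℝ) : Matrix (Fin 2) (Fin 2) ℝ)
      * ((ModularForm.heckeDiagMatrix q : GL (Fin 2) ℝ) : Matrix (Fin 2) (Fin 2) ℝ)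
  rw [ModularForm.val_heckeDiagMatrix (NeZero.ne q), mapGL_coe_matrix, mapGL_coe_matrix]
  have e00 : ((γ' 0 0 : ℤ) : ℝ) = ((γ 0 0 : ℤ) : ℝ) := by rw [h00]
  have e01 : ((γ' 0 1 : ℤ) : ℝ) = (q : ℝ) * ((γ 0 1 : ℤ) : ℝ) := by rw [h01]; push_cast; ring
  have e10 : (q : ℝ) * ((γ' 1 0 : ℤ) : ℝ) = ((γ 1 0 : ℤ) : ℝ) := by rw [← h10]; push_cast; ring
  have e11 : ((γ' 1 1 : ℤ) : ℝ) = ((γ 1 1 : ℤ) : ℝ) := by rw [h11]
  ext i j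
  fin_cases i <;> fin_cases j <;>
    simp [Matrix.mul_apply, Fin.sum_univ_two, e00, e01, ← e10, e11, mul_comm]

/-- the conjugate of `γ` (`q ∣ c`) by `diag(q,1)`. -/
theorem exists_dg_conj [NeZero q] (γ : SL(2, ℤ)) (c' : ℤ) (hc : γ 1 0 = q * c') :
    ∃ γ' : SL(2, ℤ), dg q * slp γ = slp γ' * dg q ∧ γ' 0 0 = γ 0 0 ∧ γ' 0 1 = q * γ 0 1 ∧
      γ' 1 0 = c' ∧ γ' 1 1 = γ 1 1 := by
  have hdet : γ 0 0 * γ 1 1 - γ 0 1 * γ 1 0 = 1 := by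
    have := γ.det_coe
    rwa [Matrix.det_fin_two] at this
  refine ⟨⟨!![γ 0 0, q * γ 0 1; c', γ 1 1], ?_⟩, ?_, rfl, rfl, rfl, rfl⟩
  · rw [Matrix.det_fin_two_of]
    rw [hc] at hdet
    linarith
  · exact dg_mul_slp γ _ rfl rfl hc.symm rfl

theorem Bz.g0_00 : B.g0 0 0 = 1 := rfl
theorem Bz.g0_01 : B.g0 0 1 = 1 := rfl
theorem Bz.g0_10 : B.g0 1 0 = (M : ℤ) * B.z := rfl
theorem Bz.g0_11 : B.g0 1 1 = (q : ℤ) * B.t := rfl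

theorem Bz.conj_entries (δ : SL(2, ℤ)) :
    (B.g0 * δ * B.g0⁻¹) 1 0
        = ((M : ℤ) * B.z * δ 0 0 + (q : ℤ) * B.t * δ 1 0) * ((q : ℤ) * B.t)
          - ((M : ℤ) * B.z * δ 0 1 + (q : ℤ) * B.t * δ 1 1) * ((M : ℤ) * B.z) ∧
    (B.g0 * δ * B.g0⁻¹) 1 1
        = -((M : ℤ) * B.z * δ 0 0 + (q : ℤ) * B.t * δ 1 0)
          + ((M : ℤ) * B.z * δ 0 1 + (q : ℤ) * B.t * δ 1 1) := by
  constructor
  · simp only [Matrix.SpecialLinearGroup.coe_mul, Matrix.SpecialLinearGroup.coe_inv,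
      Matrix.adjugate_fin_two, Matrix.mul_apply, Fin.sum_univ_two, Matrix.of_apply,
      Matrix.cons_val_zero, Matrix.cons_val_one, Bz.g0_00, Bz.g0_01, Bz.g0_10, Bz.g0_11]
    simp
    ring
  · simp only [Matrix.SpecialLinearGroup.coe_mul, Matrix.SpecialLinearGroup.coe_inv,
      Matrix.adjugate_fin_two, Matrix.mul_apply, Fin.sum_univ_two, Matrix.of_apply,
      Matrix.cons_val_zero, Matrix.cons_val_one, Bz.g0_00, Bz.g0_01, Bz.g0_10, Bz.g0_11]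
    simp

/-- **`W` normalises `Γ₀(Mq)`**, with the effect on the diamond class. -/
theorem Bz.conj [NeZero q] (γ : Gamma0 (M * q)) :
    ∃ γ' : Gamma0 (M * q), B.W * slp (γ : SL(2, ℤ)) = slp (γ' : SL(2, ℤ)) * B.W ∧
      Gamma0Map (M * q) γ' = ((-((M : ℤ) * B.z) : ℤ) : ZMod (M * q)) * (((γ : SL(2, ℤ)) 0 0 : ℤ) : ZMod (M * q))
        + (((q : ℤ) * B.t : ℤ) : ZMod (M * q)) * Gamma0Map (M * q) γ := by
  have h10 : ((((γ : SL(2, ℤ)) 1 0 : ℤ)) : ZMod (M * q)) = 0 := Gamma0_mem.mp γ.2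
  obtain ⟨c'', hc''⟩ := (ZMod.intCast_zmod_eq_zero_iff_dvd _ _).mp h10
  have hc : (γ : SL(2, ℤ)) 1 0 = q * ((M : ℤ) * c'') := by
    rw [hc'']; push_cast; ring
  obtain ⟨δ, hδ, d00, d01, d10, d11⟩ := exists_dg_conj (γ : SL(2, ℤ)) _ hc
  obtain ⟨e10, e11⟩ := B.conj_entries δ
  have hmem : B.g0 * δ * B.g0⁻¹ ∈ Gamma0 (M * q) := by
    rw [Gamma0_mem, e10, d00, d01, d10, d11]
    rw [ZMod.intCast_zmod_eq_zero_iff_dvd]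
    refine ⟨B.z * B.t * (γ : SL(2, ℤ)) 0 0 + (q : ℤ) * B.t * B.t * c''
      - (M : ℤ) * B.z * B.z * (γ : SL(2, ℤ)) 0 1 - B.z * B.t * (γ : SL(2, ℤ)) 1 1, ?_⟩
    push_cast
    ring
  refine ⟨⟨_, hmem⟩, ?_, ?_⟩
  · show slp B.g0 * dg q * slp (γ : SL(2, ℤ)) = slp (B.g0 * δ * B.g0⁻¹) * (slp B.g0 * dg q)
    rw [mul_assoc, hδ, map_mul, map_mul, map_inv]
    group
  · show (((B.g0 * δ * B.g0⁻¹) 1 1 : ℤ) : ZMod (M * q)) = _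
    rw [e11, d00, d01, d10, d11]
    show _ = _ * _ + _ * ((((γ : SL(2, ℤ)) 1 1 : ℤ)) : ZMod (M * q))
    have hz : (((M * q : ℕ) : ℤ) : ZMod (M * q)) = 0 := by
      rw [Int.cast_natCast]; exact ZMod.natCast_self _
    have h1 : -((M : ℤ) * B.z * (γ : SL(2, ℤ)) 0 0 + (q : ℤ) * B.t * ((M : ℤ) * c''))
        + ((M : ℤ) * B.z * ((q : ℤ) * (γ : SL(2, ℤ)) 0 1) + (q : ℤ) * B.t * (γ : SL(2, ℤ)) 1 1)
        = -((M : ℤ) * B.z) * (γ : SL(2, ℤ)) 0 0 + (q : ℤ) * B.t * (γ : SL(2, ℤ)) 1 1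
          + ((M * q : ℕ) : ℤ) * (B.z * (γ : SL(2, ℤ)) 0 1 - B.t * c'') := by
      push_cast; ring
    rw [h1, Int.cast_add, Int.cast_add, Int.cast_mul, Int.cast_mul, Int.cast_mul _ (_ - _), hz,
      zero_mul, add_zero]

end

end Fermat.Agent.S43.R2W
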