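import Fermat.Agent.S43.R2W.Prop
import Fermat.Agent.S43.R2.WKum
import Fermat.Agent.S43.R0.UOp
import Fermat.Agent.S43.CH.F1

/-!
# S43 / R2 : OUTPUT.  The partial Atkin-Lehner operator `w = w_q` on `KK = Kum ℚ̄ F1(M q) m`

`N = M q`, `q` prime, `q ∤ M`, `5 ≤ N`; data `R0.DD hN`, `R0.HD hN`.

* `prq : (ℤ/N)ˣ →* (ℤ/N)ˣ`  : `d ↦ (d mod q, 1 mod M)`; `prq_mul_q`, `prq_mul_M`, `prq_eq_of` (characterisation), `prq_prq`;
* `sw d = d * (prq d)⁻²`     : `(d⁻¹ mod q, d mod M)`; `sw_prq`, `sw_of_prq_eq_one`;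
* `cq : G_ℚ →* (ℤ/N)ˣ`       : `prq ∘ cyc N`  (cyclotomic character mod `q`, `1` mod `M`);
* `wF` : `F1(N) ≃ₐ[ℚ̄] F1(N)`, `wK m : KK ≃+ KK`;
* `dia_wK`   : `⟨d⟩ w = w ⟨sw d⟩`;  `dia_wK_prq` : `⟨prq d⟩ w = w ⟨prq d⟩⁻¹`;  `dia_wK_of_prq_eq_one`;
* `wK_gal`   : `w σ = σ w ⟨cq σ⟩`;  `gal_wK` : `σ w = ⟨cq σ⟩ w σ`;
* `wK_wK`    : `w w = ⟨d2⟩`;
* `wK_hecke` : `w T_l = T_l w ⟨prq l⟩`  (exponent `p ^ a`, `l ≠ p`);
* `gal_sub_dia_mem_K0` (S2) : `(σ - ⟨cq σ⟩) x ∈ w K_∞` if `(σ - 1) KK ⊆ K_∞`.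
-/

set_option autoImplicit false
set_option linter.unusedSectionVars false

open AlgebraicCurve ModularCurve

namespace Fermat.Agent.S43.R2O

open Fermat.Agent.ES (GQ Qb)
open Fermat.Agent.S48 Fermat.Agent.S48.B1

noncomputable section

variable {M q : ℕ} [NeZero M] [Fact q.Prime] (hqM : ¬ q ∣ M)

include hqM in
theorem coprime_qM : Nat.Coprime q M := (Nat.Prime.coprime_iff_not_dvd Fact.out).mpr hqM

theorem one_lt_q : 1 < q := (Fact.out : q.Prime).one_lt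

/-- a choice of Bezout data. -/
def BB : R2W.Bz M q := (R2W.exists_Bz (coprime_qM hqM)).some

/-- `P = M z`: the idempotent `(-1 mod q, 0 mod M)`. -/
def eP : ZMod (M * q) := (((M : ℤ) * (BB hqM).z : ℤ) : ZMod (M * q))

/-- `Q = q t`: the idempotent `(0 mod q, 1 mod M)`. -/
def eQ : ZMod (M * q) := (((q : ℤ) * (BB hqM).t : ℤ) : ZMod (M * q))

theorem eP_mul_eQ : eP hqM * eQ hqM = 0 := (BB hqM).PQ

theorem eQ_sub_eP : eQ hqM - eP hqM = 1 := (BB hqM).QsubP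

theorem eP_sq : eP hqM * eP hqM = - eP hqM := by
  linear_combination eP_mul_eQ hqM - eP hqM * eQ_sub_eP hqM

theorem eQ_sq : eQ hqM * eQ hqM = eQ hqM := by
  linear_combination eP_mul_eQ hqM + eQ hqM * eQ_sub_eP hqM

theorem eP_mul_q : eP hqM * (q : ZMod (M * q)) = 0 := by
  unfold eP
  have h : (((M : ℤ) * (BB hqM).z : ℤ) : ZMod (M * q)) * (q : ZMod (M * q))
      = (((M * q : ℕ) : ℤ) * (BB hqM).z : ℤ) := by
    push_cast
    ring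
  rw [h, Int.cast_mul, Int.cast_natCast, ZMod.natCast_self, zero_mul]

theorem eQ_mul_M : eQ hqM * (M : ZMod (M * q)) = 0 := by
  unfold eQ
  have h : (((q : ℤ) * (BB hqM).t : ℤ) : ZMod (M * q)) * (M : ZMod (M * q))
      = (((M * q : ℕ) : ℤ) * (BB hqM).t : ℤ) := by
    push_cast
    ring
  rw [h, Int.cast_mul, Int.cast_natCast, ZMod.natCast_self, zero_mul]

/-- `c ↦ (c mod q, 1 mod M)` on `ℤ/N`. -/
def prq0 : ZMod (M * q) →* ZMod (M * q) where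
  toFun c := - eP hqM * c + eQ hqM
  map_one' := by linear_combination eQ_sub_eP hqM
  map_mul' c c' := by
    linear_combination (-(c * c')) * eP_sq hqM + (c + c') * eP_mul_eQ hqM - eQ_sq hqM

/-- **`d ↦ (d mod q, 1 mod M)`.** -/
def prq : (ZMod (M * q))ˣ →* (ZMod (M * q))ˣ := Units.map (prq0 hqM)

theorem coe_prq (d : (ZMod (M * q))ˣ) :
    ((prq hqM d : (ZMod (M * q))ˣ) : ZMod (M * q)) = - eP hqM * (d : ZMod (M * q)) + eQ hqM := rfl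

/-- `prq d ≡ 1 mod M`. -/
theorem prq_mul_q (d : (ZMod (M * q))ˣ) :
    ((prq hqM d : (ZMod (M * q))ˣ) : ZMod (M * q)) * (q : ZMod (M * q)) = q := by
  rw [coe_prq]
  linear_combination (-(d : ZMod (M * q)) + 1) * eP_mul_q hqM + (q : ZMod (M * q)) * eQ_sub_eP hqM

/-- `prq d ≡ d mod q`. -/
theorem prq_mul_M (d : (ZMod (M * q))ˣ) :
    ((prq hqM d : (ZMod (M * q))ˣ) : ZMod (M * q)) * (M : ZMod (M * q))
      = (d : ZMod (M * q)) * (M : ZMod (M * q)) := by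
  rw [coe_prq]
  linear_combination (1 - (d : ZMod (M * q))) * eQ_mul_M hqM
    + (d : ZMod (M * q)) * (M : ZMod (M * q)) * eQ_sub_eP hqM

/-- characterisation of `prq d`. -/
theorem prq_eq_of {d e : (ZMod (M * q))ˣ} (h1 : (e : ZMod (M * q)) * (q : ZMod (M * q)) = q)
    (h2 : (e : ZMod (M * q)) * (M : ZMod (M * q)) = (d : ZMod (M * q)) * (M : ZMod (M * q))) :
    e = prq hqM d := by
  apply Units.ext
  rw [coe_prq]
  have hP : eP hqM = (M : ZMod (M * q)) * (((BB hqM).z : ℤ) : ZMod (M * q)) := by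
    unfold eP
    push_cast
    ring
  have hQ : eQ hqM = (q : ZMod (M * q)) * (((BB hqM).t : ℤ) : ZMod (M * q)) := by
    unfold eQ
    push_cast
    ring
  have h3 := eQ_sub_eP hqM
  have h4 : (e : ZMod (M * q)) * eQ hqM = eQ hqM := by
    rw [hQ]
    linear_combination (((BB hqM).t : ℤ) : ZMod (M * q)) * h1
  have h5 : (e : ZMod (M * q)) * eP hqM = (d : ZMod (M * q)) * eP hqM := by
    rw [hP]
    linear_combination (((BB hqM).z : ℤ) : ZMod (M * q)) * h2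
  linear_combination (-(e : ZMod (M * q))) * h3 + h4 - h5

theorem prq_prq (d : (ZMod (M * q))ˣ) : prq hqM (prq hqM d) = prq hqM d := by
  apply Units.ext
  rw [coe_prq, coe_prq]
  linear_combination (d : ZMod (M * q)) * eP_sq hqM - eP_mul_eQ hqM

/-- `prq d = d` if `d ≡ 1 mod M`. -/
theorem prq_of_mul_q {d : (ZMod (M * q))ˣ} (h : (d : ZMod (M * q)) * (q : ZMod (M * q)) = q) :
    prq hqM d = d := (prq_eq_of hqM h rfl).symm

/-- `prq d = 1` if `d ≡ 1 mod q`. -/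
theorem prq_of_mul_M {d : (ZMod (M * q))ˣ} (h : (d : ZMod (M * q)) * (M : ZMod (M * q)) = M) :
    prq hqM d = 1 :=
  (prq_eq_of hqM (e := 1) (by rw [Units.val_one, one_mul]) (by rw [Units.val_one, one_mul, h])).symm

/-- **`d ↦ (d⁻¹ mod q, d mod M)`.** -/
def sw (d : (ZMod (M * q))ˣ) : (ZMod (M * q))ˣ := d * (prq hqM d)⁻¹ * (prq hqM d)⁻¹

theorem sw_mul (d d' : (ZMod (M * q))ˣ) : sw hqM (d * d') = sw hqM d * sw hqM d' := by
  unfold sw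
  rw [map_mul, mul_inv]
  ac_rfl

theorem sw_prq (d : (ZMod (M * q))ˣ) : sw hqM (prq hqM d) = (prq hqM d)⁻¹ := by
  unfold sw
  rw [prq_prq, mul_inv_cancel, one_mul]

theorem sw_of_prq_eq_one {d : (ZMod (M * q))ˣ} (h : prq hqM d = 1) : sw hqM d = d := by
  unfold sw
  rw [h, inv_one, mul_one, mul_one]

theorem coe_sw (d : (ZMod (M * q))ˣ) :
    ((sw hqM d : (ZMod (M * q))ˣ) : ZMod (M * q))
      = - eP hqM * ((d⁻¹ : (ZMod (M * q))ˣ) : ZMod (M * q)) + eQ hqM * (d : ZMod (M * q)) := by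
  unfold sw
  rw [← map_inv, Units.val_mul, Units.val_mul, coe_prq]
  have h : (d : ZMod (M * q)) * ((d⁻¹ : (ZMod (M * q))ˣ) : ZMod (M * q)) = 1 := Units.mul_inv d
  set u := ((d⁻¹ : (ZMod (M * q))ˣ) : ZMod (M * q))
  linear_combination ((d : ZMod (M * q)) * u * u) * eP_sq hqM
    - (2 * (d : ZMod (M * q)) * u) * eP_mul_eQ hqM + (d : ZMod (M * q)) * eQ_sq hqM
    - (eP hqM * u) * h

/-- **the cyclotomic character mod `q`, as an element of `(ℤ/N)ˣ` which is `1` mod `M`.** -/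
def cq : GQ →* (ZMod (M * q))ˣ := (prq hqM).comp (CH.cyc (M * q))

theorem cq_apply (s : GQ) : cq hqM s = prq hqM (CH.cyc (M * q) s) := rfl

variable (hN : 5 ≤ M * q)

/-- **`w_q` on `F1(M q)`.** -/
def wF : (X1.F1Q (M * q)).F ≃ₐ[Qb] (X1.F1Q (M * q)).F := (BB hqM).wE (R0.DD hN) one_lt_q

theorem φ_wF (f : (X1.F1Q (M * q)).F) :
    (R0.DD hN).φ (wF hqM hN f) = Fermat.Agent.ES.An.cmp (BB hqM).W ((R0.DD hN).φ f) :=
  (BB hqM).φ_wHom (R0.DD hN) one_lt_q f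

theorem dia_wF (d : (ZMod (M * q))ˣ) (f : (X1.F1Q (M * q)).F) :
    (R0.HD hN).dia d (wF hqM hN f) = wF hqM hN ((R0.HD hN).dia (sw hqM d) f) := by
  refine (BB hqM).dia_wHom (R0.DD hN) one_lt_q d (sw hqM d) ?_ f
  rw [coe_sw, Int.cast_neg]
  rfl

theorem wF_gal (s : GQ) (f : (X1.F1Q (M * q)).F) :
    wF hqM hN ((X1.F1Q (M * q)).galF s f)
      = (X1.F1Q (M * q)).galF s (wF hqM hN ((R0.HD hN).dia (cq hqM s) f)) := by
  refine (BB hqM).wHom_gal (R0.DD hN) one_lt_q s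
    (c := ((CH.cyc (M * q) s : (ZMod (M * q))ˣ) : ZMod (M * q)).val)
    (ZMod.val_coe_unit_coprime _) (CH.cyc_spec (M * q) s _ (X1.zM_pow (M * q))) (cq hqM s) ?_ f
  rw [cq_apply, coe_prq, ZMod.natCast_zmod_val, Int.cast_neg]
  rfl

/-- `w² = ⟨d2⟩`. -/
def d2 : (ZMod (M * q))ˣ := (BB hqM).d2

theorem wF_wF (f : (X1.F1Q (M * q)).F) :
    wF hqM hN (wF hqM hN f) = (R0.HD hN).dia (d2 hqM) f :=
  (BB hqM).wHom_wHom (R0.DD hN) one_lt_q f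

/-! ### the Kummer module -/

variable (m : ℕ)

/-- **`w_q` on `KK`.** -/
def wK : Kum Qb (X1.F1Q (M * q)).F m ≃+ Kum Qb (X1.F1Q (M * q)).F m := R2K.autKumE (wF hqM hN) m

theorem wK_apply (x : Kum Qb (X1.F1Q (M * q)).F m) :
    wK hqM hN m x = R2K.autKum (wF hqM hN) m x := rfl

theorem wK_mk (f : Dm Qb (X1.F1Q (M * q)).F m) :
    wK hqM hN m (Kum.mk f)
      = Kum.mk ⟨semiU (SemilinearAut.ofAlgAut (wF hqM hN)) f, semiU_mem_Dm _ f.2⟩ := rfl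

variable {m}

/-- (W2) `⟨d⟩ w = w ⟨sw d⟩`. -/
theorem dia_wK (d : (ZMod (M * q))ˣ) (x : Kum Qb (X1.F1Q (M * q)).F m) :
    diaKum (R0.HD hN) m d (wK hqM hN m x) = wK hqM hN m (diaKum (R0.HD hN) m (sw hqM d) x) :=
  R2K.dia_autKum (R0.HD hN) (wF hqM hN) (dia_wF hqM hN d) x

/-- `⟨d⟩ w = w ⟨d⟩⁻¹` on the `q`-part. -/
theorem dia_wK_prq (d : (ZMod (M * q))ˣ) (x : Kum Qb (X1.F1Q (M * q)).F m) :
    diaKum (R0.HD hN) m (prq hqM d) (wK hqM hN m x)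
      = wK hqM hN m (diaKum (R0.HD hN) m (prq hqM d)⁻¹ x) := by
  rw [dia_wK, sw_prq]

/-- `⟨d⟩ w = w ⟨d⟩⁻¹` if `d ≡ 1 mod M`. -/
theorem dia_wK_of_mul_q {d : (ZMod (M * q))ˣ}
    (h : (d : ZMod (M * q)) * (q : ZMod (M * q)) = q) (x : Kum Qb (X1.F1Q (M * q)).F m) :
    diaKum (R0.HD hN) m d (wK hqM hN m x) = wK hqM hN m (diaKum (R0.HD hN) m d⁻¹ x) := by
  have h1 := dia_wK_prq hqM hN d x
  rwa [prq_of_mul_q hqM h] at h1

/-- `⟨d⟩ w = w ⟨d⟩` if `d ≡ 1 mod q`. -/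
theorem dia_wK_of_mul_M {d : (ZMod (M * q))ˣ}
    (h : (d : ZMod (M * q)) * (M : ZMod (M * q)) = M) (x : Kum Qb (X1.F1Q (M * q)).F m) :
    diaKum (R0.HD hN) m d (wK hqM hN m x) = wK hqM hN m (diaKum (R0.HD hN) m d x) := by
  rw [dia_wK, sw_of_prq_eq_one hqM (prq_of_mul_M hqM h)]

/-- (W3) `w σ = σ w ⟨cq σ⟩`. -/
theorem wK_gal (s : GQ) (x : Kum Qb (X1.F1Q (M * q)).F m) :
    wK hqM hN m (galKum (X1.F1Q (M * q)) m s x)
      = galKum (X1.F1Q (M * q)) m s (wK hqM hN m (diaKum (R0.HD hN) m (cq hqM s) x)) :=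
  R2K.autKum_gal (R0.HD hN) (wF hqM hN) (wF_gal hqM hN s) x

/-- (W3') `σ w = ⟨cq σ⟩ w σ`. -/
theorem gal_wK (s : GQ) (x : Kum Qb (X1.F1Q (M * q)).F m) :
    galKum (X1.F1Q (M * q)) m s (wK hqM hN m x)
      = diaKum (R0.HD hN) m (cq hqM s) (wK hqM hN m (galKum (X1.F1Q (M * q)) m s x)) := by
  rw [wK_gal, diaKum_galKum, cq_apply, dia_wK_prq, R2K.diaKum_inv_diaKum]

/-- (W4) `w w = ⟨d2⟩`. -/
theorem wK_wK (x : Kum Qb (X1.F1Q (M * q)).F m) :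
    wK hqM hN m (wK hqM hN m x) = diaKum (R0.HD hN) m (d2 hqM) x :=
  R2K.autKum_autKum (R0.HD hN) (wF hqM hN) (wF_wF hqM hN) x

/-- (S2) `(σ - ⟨cq σ⟩) KK ⊆ K_0 = w K_∞` if `(σ - 1) KK ⊆ K_∞`. -/
theorem gal_sub_dia_mem_K0 {Koo : AddSubgroup (Kum Qb (X1.F1Q (M * q)).F m)} {s : GQ}
    (hS1 : ∀ y, galKum (X1.F1Q (M * q)) m s y - y ∈ Koo) (x : Kum Qb (X1.F1Q (M * q)).F m) :
    galKum (X1.F1Q (M * q)) m s x - diaKum (R0.HD hN) m (cq hqM s) x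
      ∈ Koo.map (wK hqM hN m : Kum Qb (X1.F1Q (M * q)).F m →+ Kum Qb (X1.F1Q (M * q)).F m) := by
  obtain ⟨y, rfl⟩ := (wK hqM hN m).surjective x
  rw [gal_wK, ← map_sub, ← map_sub, cq_apply, dia_wK_prq, map_sub, diaKum_galKum]
  exact AddSubgroup.mem_map_of_mem _ (hS1 _)

/-- `w T_l = T_l w ⟨prq l⟩`  on `KK = Kum (p ^ a)`, `l ∤ N p`. -/
theorem wK_hecke {p : ℕ} (hp : p.Prime) (a : ℕ) (P : Fermat.Agent.ES.D.GoodPrime (M * q))
    (hPp : P.1 ≠ p) (x : Kum Qb (X1.F1Q (M * q)).F (p ^ a)) :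
    wK hqM hN (p ^ a) (heckeKum (R0.HD hN) (CH.preservesDm_F1 (M * q) hN (pow_pos hp.pos a)) P x)
      = heckeKum (R0.HD hN) (CH.preservesDm_F1 (M * q) hN (pow_pos hp.pos a)) P
          (wK hqM hN (p ^ a) (diaKum (R0.HD hN) (p ^ a) (prq hqM (gpUnit P)) x)) := by
  obtain ⟨A, hA, φ, hφ⟩ := Fermat.Agent.S54.exists_frob P.1 P.2.1
  have hc : cq hqM φ = prq hqM (gpUnit P) := by
    rw [cq_apply]
    congr 1
    apply Units.ext
    rw [CH.cyc_frob (M * q) P.2.1 P.2.2 A hA φ hφ]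
    rfl
  refine R2K.W_hecke (R0.HD hN) (R2K.autKum (wF hqM hN) (p ^ a)) _ (pow_pos hp.pos a).ne' P
    (CH.crux1_F1 (M * q) hN hp a P.1 P.2.1 P.2.2 hPp) A hA φ hφ (c := prq hqM (gpUnit P))
    (fun y => ?_) (fun y => ?_) x
  · rw [← hc]
    exact wK_gal hqM hN φ y
  · have h1 := dia_wK hqM hN (gpUnit P) (diaKum (R0.HD hN) (p ^ a) (prq hqM (gpUnit P)) y)
    rw [← R2K.diaKum_mul] at h1
    have h2 : sw hqM (gpUnit P) * prq hqM (gpUnit P) = gpUnit P * (prq hqM (gpUnit P))⁻¹ := by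
      unfold sw
      rw [inv_mul_cancel_right]
    rw [h2] at h1
    exact h1.symm

end

end Fermat.Agent.S43.R2O
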