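import Fermat.Agent.S43.R2W.Prop
import Fermat.Agent.S43.R0.Pull
import Fermat.Agent.SS.Formal.AL

/-!
# S43 / R2W : the restriction of `w_q` (on `F1(Mq)`) to `F_{Mq} = FF (M q)` is the Atkin-Lehner involution

`wHom_incl` : for every `w₀` with `SS.IsAL M q w₀` : `w (π^* x) = π^* (w₀ x)`.
-/

set_option autoImplicit false
set_option maxHeartbeats 400000

open AlgebraicCurve ModularCurve UpperHalfPlane CongruenceSubgroup Matrix.SpecialLinearGroup
open scoped MatrixGroups Matrix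

namespace Fermat.Agent.S43.R2W

open Fermat.Agent.S24 Fermat.Agent.ES.An Fermat.Agent.S48 Fermat.Agent.S48.Coh1
open Fermat.Agent.S48.An1
open Fermat.Agent.ES (Qb GQ FF)

noncomputable section

variable {M q : ℕ} [NeZero M] [NeZero q] [NeZero (M * q)] (B : Bz M q) (hN : 5 ≤ M * q)

/-- `π^* α f` is `Γ₀(M)`-invariant. -/
theorem inv_incl_alpha (f : FF M) (γ : Gamma0 M) :
    cmp (slp (γ : SL(2, ℤ))) ((R0.DD hN).φ (R0.incl hN (heckeAlphaBar Qb M q f)))
      = (R0.DD hN).φ (R0.incl hN (heckeAlphaBar Qb M q f)) := by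
  have e : (R0.DD hN).φ (R0.incl hN (heckeAlphaBar Qb M q f)) = toMer M (bc M f) := by
    refine ((R0.DD hN).hasLau _).eq_of_eq ?_
    rw [R0.coe_incl, coe_heckeAlphaBar]
    exact hasLau_toMer M (bc M f)
  rw [e]
  exact cmp_toMer M γ _

theorem Bz.wHom_incl_alpha (hq : 1 < q) (f : FF M) :
    B.wHom (R0.DD hN) hq (R0.incl hN (heckeAlphaBar Qb M q f))
      = R0.incl hN (heckeBetaBar Qb M q f) := by
  apply Subtype.ext
  rw [B.coe_wHom_of_inv (R0.DD hN) hq _ (inv_incl_alpha hN f), R0.coe_incl, R0.coe_incl,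
    coe_heckeAlphaBar, coe_heckeBetaBar]

theorem Bz.wHom_incl_beta (hq : 1 < q) (f : FF M) :
    B.wHom (R0.DD hN) hq (R0.incl hN (heckeBetaBar Qb M q f))
      = R0.incl hN (heckeAlphaBar Qb M q f) := by
  refine B.wHom_Vq_of_inv (R0.DD hN) hq _ _ (inv_incl_alpha hN f) ?_
  rw [R0.coe_incl, R0.coe_incl, coe_heckeAlphaBar, coe_heckeBetaBar]

/-- **the restriction of `w_q` to `F_{Mq}` is the Atkin-Lehner involution.** -/
theorem Bz.wHom_incl (hq : q.Prime) (w₀ : FF (M * q) →ₐ[Qb] FF (M * q)) (hw₀ : SS.IsAL M q w₀)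
    (x : FF (M * q)) :
    B.wHom (R0.DD hN) hq.one_lt (R0.incl hN x) = R0.incl hN (w₀ x) := by
  refine SS.induction_gen hq
    (fun x => B.wHom (R0.DD hN) hq.one_lt (R0.incl hN x) = R0.incl hN (w₀ x)) ?_ ?_ ?_ ?_ ?_ ?_ x
  · intro c
    rw [AlgHom.commutes, AlgHom.commutes, AlgHom.commutes, AlgHom.commutes]
  · intro f
    rw [hw₀.alpha, B.wHom_incl_alpha]
  · intro f
    rw [hw₀.beta, B.wHom_incl_beta]
  · intro x y hx hy
    rw [map_add, map_add, map_add, map_add, hx, hy]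
  · intro x y hx hy
    rw [map_mul, map_mul, map_mul, map_mul, hx, hy]
  · intro x hx
    rw [map_inv₀, map_inv₀, map_inv₀, map_inv₀, hx]

end

end Fermat.Agent.S43.R2W
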