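import Fermat.Agent.S43.R2W.Out
import Fermat.Agent.S43.R2W.Res

/-!
# S43 / R2 : OUTPUT (continued).  `w_q` on `KK` restricts to the Atkin-Lehner involution of `Kum (M q) m`

* `wF_incl` : `w (π^* x) = π^* (w₀ x)`;   `wK_pull` : `w (π^* x) = π^* (w₀ x)` on Kummer modules.
-/

set_option autoImplicit false
set_option linter.unusedSectionVars false

open AlgebraicCurve ModularCurve

namespace Fermat.Agent.S43.R2O

open Fermat.Agent.ES (GQ Qb FF)
open Fermat.Agent.S48 Fermat.Agent.S48.B1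

noncomputable section

variable {M q : ℕ} [NeZero M] [Fact q.Prime] (hqM : ¬ q ∣ M) (hN : 5 ≤ M * q)
  {w₀ : FF (M * q) →ₐ[Qb] FF (M * q)} (hw₀ : SS.IsAL M q w₀)

include hw₀ in
theorem wF_incl (x : FF (M * q)) : wF hqM hN (R0.incl hN x) = R0.incl hN (w₀ x) :=
  (BB hqM).wHom_incl hN (Fact.out : q.Prime) w₀ hw₀ x

/-- **`w π^* = π^* w₀`.** -/
theorem wK_pull (m : ℕ) (x : ES.Kum (M * q) m) :
    wK hqM hN m (R0.pull hN m x) = R0.pull hN m (SS.wKum hw₀ (Fact.out : q.Prime) m x) := by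
  obtain ⟨f, rfl⟩ := ES.Kum.mk_surjective x
  rw [SS.wKum_mk, R0.pull_mk, R0.pull_mk, wK_mk]
  exact congrArg Kum.mk (Subtype.ext (Units.ext (wF_incl hqM hN hw₀ _)))

end

end Fermat.Agent.S43.R2O
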