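import Fermat.Agent.S43.R2W.Lau
import Fermat.Agent.S48.An1.HeckeMF

/-!
# S43 / R2 : the partial Atkin-Lehner operator `w = w_q` on `F1(Mq)`

`wHom B D : F1(Mq) →ₐ[ℚ̄] F1(Mq)`, `φ (w f) = (φ f) ∘ W`.
-/

set_option autoImplicit false
set_option maxHeartbeats 400000

open AlgebraicCurve ModularCurve UpperHalfPlane CongruenceSubgroup Matrix.SpecialLinearGroup
open scoped MatrixGroups Matrix

namespace Fermat.Agent.S43.R2W

open Fermat.Agent.S24 Fermat.Agent.ES Fermat.Agent.ES.An Fermat.Agent.S48 Fermat.Agent.S48.Coh1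
open Fermat.Agent.S48.An1
open Fermat.Agent.S48.B1 (QField)

noncomputable section

variable {M q : ℕ} [NeZero M] [NeZero q] [NeZero (M * q)] (B : Bz M q)

/-! ### general lemmas -/

theorem cmp_congr {α β : GLp} (h : ∀ τ : ℍ, α • τ = β • τ) (u : Mer) : cmp α u = cmp β u := by
  obtain ⟨a, b, -, rfl⟩ := exists_div u
  have key : ∀ f : Hol, cmpHol α f = cmpHol β f := fun f => Subtype.ext (by
    funext τ
    rw [cmpHol_apply, cmpHol_apply, h])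
  rw [cmp_div, cmp_div, key, key]

theorem Gamma0_a_mul_d {N : ℕ} (γ : Gamma0 N) :
    ((((γ : SL(2, ℤ)) 0 0 : ℤ)) : ZMod N) * Gamma0Map N γ = 1 := by
  have hdet : (γ : SL(2, ℤ)) 0 0 * (γ : SL(2, ℤ)) 1 1 - (γ : SL(2, ℤ)) 0 1 * (γ : SL(2, ℤ)) 1 0 = 1 := by
    have := (γ : SL(2, ℤ)).det_coe
    rwa [Matrix.det_fin_two] at this
  have h10 : ((((γ : SL(2, ℤ)) 1 0 : ℤ)) : ZMod N) = 0 := Gamma0_mem.mp γ.2
  have h := congrArg (fun x : ℤ => (x : ZMod N)) hdet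
  simp only [Int.cast_sub, Int.cast_mul, h10, mul_zero, sub_zero, Int.cast_one] at h
  exact h

/-- the two idempotents add up to `1`. -/
theorem Bz.idem_add : ((-((M : ℤ) * B.z) : ℤ) : ZMod (M * q)) + (((q : ℤ) * B.t : ℤ) : ZMod (M * q)) = 1 := by
  rw [← Int.cast_add, show -((M : ℤ) * B.z) + (q : ℤ) * B.t = 1 by linarith [B.h], Int.cast_one]

/-! ### `W` normalises `Γ₁(Mq)` -/

theorem Bz.conj1 (γ : Gamma1 (M * q)) :
    ∃ γ' : Gamma1 (M * q), B.W * slp (γ : SL(2, ℤ)) = slp (γ' : SL(2, ℤ)) * B.W := by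
  obtain ⟨γ', h1, h2⟩ := B.conj ⟨γ, Gamma1_in_Gamma0 _ γ.2⟩
  have hd : Gamma0Map (M * q) ⟨γ, Gamma1_in_Gamma0 _ γ.2⟩ = 1 :=
    (mem_Gamma1_iff _ ⟨γ, Gamma1_in_Gamma0 _ γ.2⟩).mp γ.2
  have ha := Gamma0_a_mul_d (⟨γ, Gamma1_in_Gamma0 _ γ.2⟩ : Gamma0 (M * q))
  rw [hd, mul_one] at ha
  rw [hd, ha, mul_one, mul_one, B.idem_add] at h2
  exact ⟨⟨γ', (mem_Gamma1_iff _ γ').mpr h2⟩, h1⟩

/-- `W` as a correspondence on `Γ₁(Mq)`. -/
def Bz.corr : Corr (Gamma1 (M * q)) where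
  X := Unit
  rep := fun _ => (B.W : GL (Fin 2) ℝ)
  perm := fun _ => 1
  c := fun γ _ => (B.conj1 γ).choose
  perm_mul := fun _ _ _ => rfl
  spec := fun γ _ => congrArg Subtype.val (B.conj1 γ).choose_spec

theorem Bz.corr_pos (x : B.corr.X) : 0 < (B.corr.rep x).val.det := B.W.2

theorem Bz.merOp_corr (u : Mer) : merOp B.corr B.corr_pos u = cmp B.W u := by
  unfold merOp
  exact Fintype.prod_unique (ι := Unit) _

theorem Bz.isMFr_cmp_W {u : Mer} (hu : X1.IsMFr (Gpm (M * q)) u) :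
    X1.IsMFr (Gpm (M * q)) (cmp B.W u) := by
  rw [← B.merOp_corr]
  refine IsMFr.merOp B.corr B.corr_pos (fun _ => ?_) (Gamma1_le_Gpm _) (neg_one_mem_Gpm _)
    (fun _ h => h) hu
  obtain ⟨α, hα⟩ :=
    P2MW.S_ModularFormClass_isBoundedAt_heckeU.ModularForm.S06W2.exists_heckeDiagMatrix_eq_map q
  have hSL : ∀ g : SL(2, ℤ),
      mapGL ℝ g = Matrix.GeneralLinearGroup.map (Rat.castHom ℝ) (mapGL ℚ g) := by
    intro g
    ext i j
    simp [mapGL_coe_matrix]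
  refine ⟨mapGL ℚ B.g0 * α, ?_⟩
  show mapGL ℝ B.g0 * ModularForm.heckeDiagMatrix q = _
  rw [hα, hSL, map_mul]

/-! ### the generators -/

/-- the vector `(0,a) g₀ = (a M z, a q t)`. -/
def Bz.vec (a : ZMod (M * q)) : Fin 2 → ZMod (M * q) :=
  ![a * (((M : ℤ) * B.z : ℤ) : ZMod (M * q)), a * (((q : ℤ) * B.t : ℤ) : ZMod (M * q))]

theorem Bz.zero_cons_vecMul (a : ZMod (M * q)) :
    (![0, a] : Fin 2 → ZMod (M * q)) ᵥ* ((B.g0 : SL(2, ℤ)) : SL(2, ZMod (M * q))).1 = B.vec a := by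
  ext i
  fin_cases i
  · simp [Matrix.vecMul, dotProduct, Fin.sum_univ_two, Bz.vec, Bz.g0_10]
  · simp [Matrix.vecMul, dotProduct, Fin.sum_univ_two, Bz.vec, Bz.g0_11]

theorem Bz.cmp_g0_XMer (a : ZMod (M * q)) :
    cmp (slp B.g0) (XMer (M * q) a)
      = algebraMap Hol Mer ⟨EIS.Xf (M * q) (B.vec a), EIS.Xf_mdiff _⟩ := by
  unfold XMer
  rw [cmp_algebraMap]
  refine congrArg _ (Subtype.ext ?_)
  funext τ
  rw [cmpHol_apply, slp_smul]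
  show EIS.Xf (M * q) ![0, a] (B.g0 • τ) = EIS.Xf (M * q) (B.vec a) τ
  rw [EIS.Xf_smul, B.zero_cons_vecMul]

theorem Bz.vec_zero_eq (a : ZMod (M * q)) :
    B.vec a 0 = ((M : ℕ) : ZMod (M * q)) * (a * ((B.z : ℤ) : ZMod (M * q))) := by
  show a * (((M : ℤ) * B.z : ℤ) : ZMod (M * q)) = _
  push_cast
  ring

theorem Bz.vec_zero_ne (hq : 1 < q) (a : (ZMod (M * q))ˣ) : B.vec (a : ZMod (M * q)) 0 ≠ 0 := by
  intro h
  have h1 : (((M : ℤ) * B.z : ℤ) : ZMod (M * q)) = 0 := a.isUnit.mul_right_eq_zero.mp h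
  rw [ZMod.intCast_zmod_eq_zero_iff_dvd] at h1
  have h2 : (q : ℤ) ∣ (M : ℤ) * B.z := (Dvd.intro_left (M : ℤ) (by push_cast; ring)).trans h1
  have h3 : (q : ℤ) ∣ 1 := by
    have := dvd_sub (Dvd.intro B.t rfl : (q : ℤ) ∣ (q : ℤ) * B.t) h2
    rwa [B.h] at this
  have h4 := Int.le_of_dvd one_pos h3
  omega

/-- the `q`-expansion of `w x_{(0,a)}`. -/
def Bz.wx (a : ZMod (M * q)) : LaurentSeries Qb := ws M q (X1.zM (M * q)) (B.vec a)

theorem Bz.hasLau_cmp_W_XMer (hq : 1 < q) (a : (ZMod (M * q))ˣ) :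
    HasLau 1 (cmp B.W (XMer (M * q) (a : ZMod (M * q)))) (coeffMap iotaC (B.wx (a : ZMod (M * q)))) := by
  rw [Bz.W, cmp_mul, B.cmp_g0_XMer, Bz.wx, coeffMap_ws, X1.iotaC_zM]
  exact hasLau_cmp_dg_Xf rfl _ _ (B.vec_zero_eq _) (B.vec_zero_ne hq a)

theorem hasLau_cmp_dg {u : Mer} {x : LaurentSeries Qb} (hu : HasLau 1 u (coeffMap iotaC x)) :
    HasLau 1 (cmp (dg q) u) (coeffMap iotaC (Vq Qb q x)) := by
  rw [coeffMap_Vq]
  exact hasLau_cmp_inf q (dg q) (coe_dg_smul q) u _ hu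

variable (D : X1Data (M * q))

include D in
theorem Bz.hasLau_cmp_W_jMer :
    HasLau 1 (cmp B.W jMer) (coeffMap iotaC (Vq Qb q (jqModC Qb))) := by
  rw [Bz.W, cmp_mul, DictCore.cmp_jMer]
  have h := D.hasLau ⟨jqModC Qb, X1.jq_mem (M * q)⟩
  rw [show D.B.φ ⟨jqModC Qb, X1.jq_mem (M * q)⟩ = jMer from D.φ_jq] at h
  exact hasLau_cmp_dg h

/-! ### the operator -/

theorem Bz.exists_cmp (hq : 1 < q) (f : (X1.F1Q (M * q)).F) :
    ∃ f' : (X1.F1Q (M * q)).F, D.φ f' = cmp B.W (D.φ f) := by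
  induction f using QField.induction with
  | hgen x hx =>
    rcases hx with rfl | ⟨a, rfl⟩
    · obtain ⟨h1, h2⟩ := D.exists_of_isMFr _ _ (B.isMFr_cmp_W (D.isMFr ⟨jqModC Qb, X1.jq_mem _⟩))
        (by
          rw [show D.B.φ ⟨jqModC Qb, X1.jq_mem (M * q)⟩ = jMer from D.φ_jq]
          exact B.hasLau_cmp_W_jMer D)
      exact ⟨_, h2⟩
    · obtain ⟨h1, h2⟩ := D.exists_of_isMFr _ _
        (B.isMFr_cmp_W (D.isMFr ⟨X1.xg (M * q) (a : ZMod (M * q)), X1.xg_mem _ a⟩))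
        (by
          rw [show D.B.φ ⟨X1.xg (M * q) (a : ZMod (M * q)), X1.xg_mem _ a⟩ = _ from D.φ_xg a]
          exact B.hasLau_cmp_W_XMer hq a)
      exact ⟨_, h2⟩
  | hc c => exact ⟨algebraMap Qb _ c, by rw [X1Data.φ, D.B.φ_alg, AlgHom.commutes]⟩
  | hadd f g hf hg =>
    obtain ⟨f', hf'⟩ := hf
    obtain ⟨g', hg'⟩ := hg
    exact ⟨f' + g', by rw [RingHom.map_add, RingHom.map_add, map_add, hf', hg']⟩
  | hmul f g hf hg =>
    obtain ⟨f', hf'⟩ := hf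
    obtain ⟨g', hg'⟩ := hg
    exact ⟨f' * g', by rw [map_mul, map_mul, map_mul, hf', hg']⟩
  | hinv f hf =>
    obtain ⟨f', hf'⟩ := hf
    exact ⟨f'⁻¹, by rw [map_inv₀, map_inv₀, map_inv₀, hf']⟩

/-- `f ↦ f ∘ W`. -/
def Bz.wFun (hq : 1 < q) (f : (X1.F1Q (M * q)).F) : (X1.F1Q (M * q)).F := (B.exists_cmp D hq f).choose

theorem Bz.φ_wFun (hq : 1 < q) (f : (X1.F1Q (M * q)).F) :
    D.φ (B.wFun D hq f) = cmp B.W (D.φ f) := (B.exists_cmp D hq f).choose_spec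

/-- **the partial Atkin-Lehner operator `w_q` on `F1(Mq)`.** -/
def Bz.wHom (hq : 1 < q) : (X1.F1Q (M * q)).F →ₐ[Qb] (X1.F1Q (M * q)).F where
  toFun := B.wFun D hq
  map_one' := D.φ_injective (by rw [Bz.φ_wFun, map_one, map_one])
  map_mul' a b := D.φ_injective (by
    rw [Bz.φ_wFun, map_mul, map_mul, map_mul, Bz.φ_wFun, Bz.φ_wFun])
  map_zero' := D.φ_injective (by rw [Bz.φ_wFun, map_zero, map_zero])
  map_add' a b := D.φ_injective (by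
    rw [Bz.φ_wFun, RingHom.map_add, map_add, RingHom.map_add, Bz.φ_wFun, Bz.φ_wFun])
  commutes' c := D.φ_injective (by rw [Bz.φ_wFun, X1Data.φ, D.B.φ_alg, AlgHom.commutes])

theorem Bz.φ_wHom (hq : 1 < q) (f : (X1.F1Q (M * q)).F) :
    D.φ (B.wHom D hq f) = cmp B.W (D.φ f) := B.φ_wFun D hq f

/-- the `q`-expansion of `w x_{(0,a)}`. -/
theorem Bz.coe_wHom_xg (hq : 1 < q) (a : (ZMod (M * q))ˣ) :
    ((B.wHom D hq ⟨X1.xg (M * q) (a : ZMod (M * q)), X1.xg_mem _ a⟩ : (X1.F1Q (M * q)).F)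
      : LaurentSeries Qb) = B.wx (a : ZMod (M * q)) := by
  have h1 := D.hasLau (B.wHom D hq ⟨X1.xg (M * q) (a : ZMod (M * q)), X1.xg_mem _ a⟩)
  rw [show D.B.φ _ = cmp B.W (D.φ _) from B.φ_wHom D hq _,
    show D.φ ⟨X1.xg (M * q) (a : ZMod (M * q)), X1.xg_mem _ a⟩ = _ from D.φ_xg a] at h1
  exact (coeffMap iotaC).injective (h1.unique (B.hasLau_cmp_W_XMer hq a))

/-- the `q`-expansion of `w j`. -/
theorem Bz.coe_wHom_jq (hq : 1 < q) :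
    ((B.wHom D hq ⟨jqModC Qb, X1.jq_mem _⟩ : (X1.F1Q (M * q)).F) : LaurentSeries Qb)
      = Vq Qb q (jqModC Qb) := by
  have h1 := D.hasLau (B.wHom D hq ⟨jqModC Qb, X1.jq_mem _⟩)
  rw [show D.B.φ _ = cmp B.W (D.φ _) from B.φ_wHom D hq _,
    show D.φ ⟨jqModC Qb, X1.jq_mem (M * q)⟩ = jMer from D.φ_jq] at h1
  exact (coeffMap iotaC).injective (h1.unique (B.hasLau_cmp_W_jMer D))

end

end Fermat.Agent.S43.R2W
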